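import Mathlib

/-!
# S43 / GMAL / Abs : `V = L²` and `ρ_A : G → GL₂(A)` from the Cayley-Hamilton identity (pure algebra)

`A` a commutative ring in which `2` is invertible, `V` a faithful `A`-module, `r : G → Aut_A(V)` with
`r g + d g • r g⁻¹ = t g` (`t g ∈ A`, `d : G → A` multiplicative), `c ∈ G` an involution with `d c = -1`.
`e₁ = (1 + c)/2`, `e₂ = (1 - c)/2`.  Then `e₁ g e₁ = a(g) e₁`, `a(g) = (t(g) + t(cg))/2`,
`e₂ g e₂ = δ(g) e₂`, `δ(g) = (t(g) - t(cg))/2`, `e₁ g e₂ g' e₁ = (a(gg') - a(g)a(g')) e₁`.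
If `a(g₁g₂) - a(g₁)a(g₂)` and `δ(g₂g₁) - δ(g₂)δ(g₁)` are units then `w = e₂ g₂ e₁ : e₁V → e₂V` is
bijective, `V = L²` with `L = e₁ V` and `G` acts by explicit matrices with entries in `A`.
-/

set_option autoImplicit false

namespace Fermat.Agent.S43.GMAL

open Matrix Matrix.Module

/-- The abstract input. -/
structure Core (A V G : Type*) [CommRing A] [AddCommGroup V] [Module A V] [Group G] where
  r : G →* Module.End A V
  t : G → A
  d : G →* A
  hCH : ∀ g, r g + d g • r g⁻¹ = t g • (1 : Module.End A V)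
  c : G
  hc : c * c = 1
  hdc : d c = -1
  h : A
  hh : 2 * h = 1
  g1 : G
  g2 : G
  μ1 : A
  μ2 : A

namespace Core

variable {A V G : Type*} [CommRing A] [AddCommGroup V] [Module A V] [Group G] (D : Core A V G)

/-- upper left entry -/
def a (g : G) : A := D.h * (D.t g + D.t (D.c * g))
/-- lower right entry -/
def δ (g : G) : A := D.h * (D.t g - D.t (D.c * g))

/-- the projector `(1 + c)/2` -/
def p1 : V →ₗ[A] V := D.h • (1 + D.r D.c)
/-- the projector `(1 - c)/2` -/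
def p2 : V →ₗ[A] V := D.h • (1 - D.r D.c)

theorem p1_apply (x : V) : D.p1 x = D.h • (x + D.r D.c x) := rfl
theorem p2_apply (x : V) : D.p2 x = D.h • (x - D.r D.c x) := rfl

theorem r_mul_apply (g g' : G) (x : V) : D.r (g * g') x = D.r g (D.r g' x) := by
  rw [map_mul]; rfl

theorem cc (x : V) : D.r D.c (D.r D.c x) = x := by
  rw [← r_mul_apply, D.hc, map_one]; rfl

theorem c_inv : D.c⁻¹ = D.c := inv_eq_of_mul_eq_one_left D.hc

theorem two_h_smul (x : V) : D.h • (x + x) = x := by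
  rw [← two_smul A x, smul_smul, mul_comm, D.hh, one_smul]

theorem p1_add_p2 (x : V) : D.p1 x + D.p2 x = x := by
  rw [p1_apply, p2_apply, ← smul_add]
  have : x + D.r D.c x + (x - D.r D.c x) = x + x := by abel
  rw [this, two_h_smul]

theorem c_p1 (x : V) : D.r D.c (D.p1 x) = D.p1 x := by
  rw [p1_apply, map_smul, map_add, cc, add_comm]

theorem c_p2 (x : V) : D.r D.c (D.p2 x) = - D.p2 x := by
  rw [p2_apply, map_smul, map_sub, cc, ← smul_neg, neg_sub]

theorem p1_of_plus {x : V} (hx : D.r D.c x = x) : D.p1 x = x := by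
  rw [p1_apply, hx, two_h_smul]

theorem p2_of_plus {x : V} (hx : D.r D.c x = x) : D.p2 x = 0 := by
  rw [p2_apply, hx, sub_self, smul_zero]

theorem p2_of_minus {y : V} (hy : D.r D.c y = -y) : D.p2 y = y := by
  rw [p2_apply, hy, sub_neg_eq_add, two_h_smul]

theorem p1_of_minus {y : V} (hy : D.r D.c y = -y) : D.p1 y = 0 := by
  rw [p1_apply, hy, add_neg_cancel, smul_zero]

theorem CH (g : G) (x : V) : D.r g x + D.d g • D.r g⁻¹ x = D.t g • x := by
  have := congrArg (fun f : Module.End A V => f x) (D.hCH g)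
  simpa using this

theorem CHc (g : G) (x : V) :
    D.r D.c (D.r g x) - D.d g • D.r g⁻¹ (D.r D.c x) = D.t (D.c * g) • x := by
  have h1 := D.CH (D.c * g) x
  rw [r_mul_apply, _root_.mul_inv_rev, c_inv, r_mul_apply, map_mul, D.hdc] at h1
  rw [← h1]
  simp [sub_eq_add_neg]

theorem keyA (g : G) {x : V} (hx : D.r D.c x = x) : D.p1 (D.r g x) = D.a g • x := by
  have h1 := D.CH g x
  have h2 := D.CHc g x
  rw [hx] at h2
  rw [p1_apply, a, mul_smul, add_smul, ← h1, ← h2]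
  congr 1
  abel

theorem keyD (g : G) {y : V} (hy : D.r D.c y = -y) : D.p2 (D.r g y) = D.δ g • y := by
  have h1 := D.CH g y
  have h2 := D.CHc g y
  rw [hy, map_neg, smul_neg, sub_neg_eq_add] at h2
  rw [p2_apply, δ, mul_smul, sub_smul, ← h1, ← h2]
  congr 1
  abel

theorem p2_eq (x : V) : D.p2 x = x - D.p1 x := by
  rw [eq_sub_iff_add_eq, add_comm, p1_add_p2]

theorem p1_eq (x : V) : D.p1 x = x - D.p2 x := by
  rw [eq_sub_iff_add_eq, p1_add_p2]

theorem keyB (g g' : G) {x : V} (hx : D.r D.c x = x) :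
    D.p1 (D.r g (D.p2 (D.r g' x))) = (D.a (g * g') - D.a g * D.a g') • x := by
  rw [p2_eq, keyA D g' hx, map_sub, map_sub, map_smul, map_smul, ← r_mul_apply, keyA D _ hx,
    keyA D g hx, sub_smul, mul_smul, smul_comm]

theorem keyB' (g g' : G) {y : V} (hy : D.r D.c y = -y) :
    D.p2 (D.r g (D.p1 (D.r g' y))) = (D.δ (g * g') - D.δ g * D.δ g') • y := by
  rw [p1_eq, keyD D g' hy, map_sub, map_sub, map_smul, map_smul, ← r_mul_apply, keyD D _ hy,
    keyD D g hy, sub_smul, mul_smul, smul_comm]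

/-- `L = e₁ V`. -/
def L : Submodule A V := LinearMap.ker (D.r D.c - 1)

theorem mem_L {x : V} : x ∈ D.L ↔ D.r D.c x = x := by
  rw [L, LinearMap.mem_ker, LinearMap.sub_apply, sub_eq_zero]; rfl

theorem p1_mem (x : V) : D.p1 x ∈ D.L := D.mem_L.2 (D.c_p1 x)

/-- `w = e₂ g₂ e₁`. -/
def w : D.L →ₗ[A] V := D.p2 ∘ₗ D.r D.g2 ∘ₗ D.L.subtype

theorem w_apply (x : D.L) : D.w x = D.p2 (D.r D.g2 (x : V)) := rfl

theorem c_w (x : D.L) : D.r D.c (D.w x) = - D.w x := D.c_p2 _

/-- `Ψ(x, y) = x + w y`. -/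
def Ψ0 : (Fin 2 → D.L) →ₗ[A] V :=
  D.L.subtype ∘ₗ LinearMap.proj 0 + D.w ∘ₗ LinearMap.proj 1

theorem Ψ0_apply (v : Fin 2 → D.L) : D.Ψ0 v = (v 0 : V) + D.w (v 1) := rfl

/-- the matrices. -/
def M (g : G) : Matrix (Fin 2) (Fin 2) A :=
  !![D.a g, D.a (g * D.g2) - D.a g * D.a D.g2;
     D.μ2 * (D.a (D.g1 * g) - D.a D.g1 * D.a g), D.δ g]

/-- The unit hypotheses. -/
structure Units : Prop where
  h1 : D.μ1 * (D.a (D.g1 * D.g2) - D.a D.g1 * D.a D.g2) = 1
  h2 : D.μ2 * (D.δ (D.g2 * D.g1) - D.δ D.g2 * D.δ D.g1) = 1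

variable {D}

theorem w_u (hU : D.Units) {z : V} (hz : D.r D.c z = -z) :
    D.w (D.μ2 • ⟨D.p1 (D.r D.g1 z), D.p1_mem _⟩) = z := by
  rw [map_smul, w_apply]
  simp only
  rw [keyB' D _ _ hz, smul_smul, hU.h2, one_smul]

theorem Ψ0_injective (hU : D.Units) : Function.Injective D.Ψ0 := by
  rw [injective_iff_map_eq_zero]
  intro v hv
  rw [Ψ0_apply] at hv
  have hx := D.mem_L.1 (v 0).2
  have hy := D.mem_L.1 (v 1).2
  have h1 := congrArg D.p1 hv
  rw [map_add, map_zero, p1_of_plus D hx, p1_of_minus D (D.c_w _), add_zero] at h1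
  rw [h1, zero_add] at hv
  have h2 := congrArg (fun z => D.μ1 • D.p1 (D.r D.g1 z)) hv
  simp only [map_zero, smul_zero] at h2
  rw [w_apply, keyB D _ _ hy, smul_smul, hU.h1, one_smul] at h2
  funext i
  fin_cases i
  · exact Subtype.ext h1
  · exact Subtype.ext h2

theorem Ψ0_surjective (hU : D.Units) : Function.Surjective D.Ψ0 := by
  intro v
  refine ⟨![⟨D.p1 v, D.p1_mem v⟩, D.μ2 • ⟨D.p1 (D.r D.g1 (D.p2 v)), D.p1_mem _⟩], ?_⟩
  rw [Ψ0_apply]
  simp only [Matrix.cons_val_zero, Matrix.cons_val_one]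
  rw [w_u hU (D.c_p2 v), p1_add_p2]

theorem equivariant (hU : D.Units) (g : G) (v : Fin 2 → D.L) :
    D.r g (D.Ψ0 v) = D.Ψ0 (D.M g • v) := by
  have hx := D.mem_L.1 (v 0).2
  have hy := D.mem_L.1 (v 1).2
  rw [Ψ0_apply, Ψ0_apply, map_add]
  simp only [Matrix.Module.smul_apply, Fin.sum_univ_two, M, Matrix.of_apply, Matrix.cons_val',
    Matrix.cons_val_zero, Matrix.cons_val_one, Matrix.cons_val_fin_one, map_add, map_smul,
    Submodule.coe_add, Submodule.coe_smul]
  -- first column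
  have e1 : D.r g (v 0 : V) = D.a g • (v 0 : V)
      + (D.μ2 * (D.a (D.g1 * g) - D.a D.g1 * D.a g)) • D.w (v 0) := by
    conv_lhs => rw [← D.p1_add_p2 (D.r g (v 0 : V))]
    rw [keyA D g hx]
    congr 1
    have h3 := w_u hU (D.c_p2 (D.r g (v 0 : V)))
    rw [← h3]
    have h4 : (⟨D.p1 (D.r D.g1 (D.p2 (D.r g (v 0 : V)))), D.p1_mem _⟩ : D.L)
        = (D.a (D.g1 * g) - D.a D.g1 * D.a g) • v 0 := Subtype.ext (by
      rw [Submodule.coe_smul]; exact keyB D _ _ hx)
    rw [h4, map_smul, map_smul, smul_smul]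
  have e2 : D.r g (D.w (v 1)) = (D.a (g * D.g2) - D.a g * D.a D.g2) • (v 1 : V)
      + D.δ g • D.w (v 1) := by
    conv_lhs => rw [← D.p1_add_p2 (D.r g (D.w (v 1)))]
    rw [keyD D g (D.c_w _), w_apply, keyB D _ _ hy]
  rw [e1, e2]
  abel


/-- `Ψ` as a linear equivalence. -/
noncomputable def Ψ (hU : D.Units) : (Fin 2 → D.L) ≃ₗ[A] V :=
  LinearEquiv.ofBijective D.Ψ0 ⟨Ψ0_injective hU, Ψ0_surjective hU⟩

theorem Ψ_apply (hU : D.Units) (v : Fin 2 → D.L) : Ψ hU v = D.Ψ0 v := rfl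

theorem L_faithful (hU : D.Units) (hf : ∀ a : A, (∀ v : V, a • v = 0) → a = 0) (a : A)
    (ha : ∀ x : D.L, a • x = 0) : a = 0 := by
  refine hf a fun v => ?_
  obtain ⟨u, rfl⟩ := Ψ0_surjective hU v
  rw [← map_smul]
  have : a • u = 0 := by
    funext i
    exact ha (u i)
  rw [this, map_zero]

end Core

/-- `M₂(A)` acts faithfully on `L²` if `A` acts faithfully on `L`. -/
theorem matrix_faithful {A L : Type*} [CommRing A] [AddCommGroup L] [Module A L]
    (hf : ∀ a : A, (∀ x : L, a • x = 0) → a = 0) {M N : Matrix (Fin 2) (Fin 2) A}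
    (h : ∀ v : Fin 2 → L, M • v = N • v) : M = N := by
  ext i j
  rw [← sub_eq_zero]
  refine hf _ fun x => ?_
  have h1 := congrFun (h (Pi.single j x)) i
  simp only [Matrix.Module.smul_apply] at h1
  rw [Finset.sum_eq_single j, Finset.sum_eq_single j] at h1
  · rw [Pi.single_eq_same] at h1
    rw [sub_smul, h1, sub_self]
  · intro b _ hb
    rw [Pi.single_eq_of_ne hb, smul_zero]
  · intro hj; exact absurd (Finset.mem_univ j) hj
  · intro b _ hb
    rw [Pi.single_eq_of_ne hb, smul_zero]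
  · intro hj; exact absurd (Finset.mem_univ j) hj

theorem matrix_CH {A : Type*} [CommRing A] (M : Matrix (Fin 2) (Fin 2) A) :
    M * M = M.trace • M - M.det • (1 : Matrix (Fin 2) (Fin 2) A) := by
  ext i j
  fin_cases i <;> fin_cases j <;>
    simp [Matrix.mul_apply, Fin.sum_univ_two, Matrix.trace_fin_two, Matrix.det_fin_two] <;> ring

namespace Core

variable {A V G : Type*} [CommRing A] [AddCommGroup V] [Module A V] [Group G] {D : Core A V G}

theorem M_eq_of (hU : D.Units) (hf : ∀ a : A, (∀ v : V, a • v = 0) → a = 0)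
    {M N : Matrix (Fin 2) (Fin 2) A} (h : ∀ v : Fin 2 → D.L, D.Ψ0 (M • v) = D.Ψ0 (N • v)) : M = N :=
  matrix_faithful (L_faithful hU hf) fun v => Ψ0_injective hU (h v)

/-- `ρ_A` as a monoid homomorphism to matrices. -/
def ρM (hU : D.Units) (hf : ∀ a : A, (∀ v : V, a • v = 0) → a = 0) :
    G →* Matrix (Fin 2) (Fin 2) A where
  toFun := D.M
  map_one' := M_eq_of hU hf fun v => by
    rw [← equivariant hU, map_one, one_smul]; rfl
  map_mul' g g' := M_eq_of hU hf fun v => by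
    rw [← equivariant hU, mul_smul, ← equivariant hU, ← equivariant hU, r_mul_apply]

theorem trace_M (g : G) : (D.M g).trace = D.t g := by
  rw [Matrix.trace_fin_two]
  simp only [M, Matrix.of_apply, Matrix.cons_val', Matrix.cons_val_zero, Matrix.cons_val_one,
    Matrix.cons_val_fin_one, a, δ]
  linear_combination (D.t g) * D.hh

theorem M_CH (hU : D.Units) (hf : ∀ a : A, (∀ v : V, a • v = 0) → a = 0) (g : G) :
    D.M g + D.d g • D.M g⁻¹ = D.t g • (1 : Matrix (Fin 2) (Fin 2) A) :=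
  M_eq_of hU hf fun v => by
    rw [add_smul, map_add, smul_assoc, ← equivariant hU, LinearMap.map_smul D.Ψ0 (D.d g),
      ← equivariant hU, smul_assoc, one_smul, LinearMap.map_smul D.Ψ0 (D.t g), CH]

theorem det_M (hU : D.Units) (hf : ∀ a : A, (∀ v : V, a • v = 0) → a = 0) (g : G) :
    (D.M g).det = D.d g := by
  have h1 := M_CH hU hf g
  have h2 := matrix_CH (D.M g)
  have h3 : D.M g⁻¹ * D.M g = 1 := by
    have := (ρM hU hf).map_mul g⁻¹ g
    rw [inv_mul_cancel, map_one] at this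
    exact this.symm
  have h4 := congrArg (fun X => X * D.M g) h1
  simp only [add_mul, smul_mul_assoc, h3, one_mul] at h4
  rw [h2, trace_M] at h4
  have h5 := congrFun (congrFun h4 0) 0
  simp only [Matrix.add_apply, Matrix.sub_apply, Matrix.smul_apply, Matrix.one_apply_eq,
    smul_eq_mul, mul_one] at h5
  linear_combination -h5

end Core

end Fermat.Agent.S43.GMAL
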