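import Fermat.Agent.S43.GMAL.Abs

/-!
# S43 / GMAL / Main : the consumer form of the GMA theorem

`A` a commutative `k`-algebra with an augmentation `π : A → k` such that `π a ≠ 0 → IsUnit a` (local),
`V` a faithful `A`-module, `r : G → Aut_A(V)` with `r g + d g • r g⁻¹ = t g`, `ρ̄ : G → GL₂(k)` without stable line,
`π (t g) = tr ρ̄ g`, `det ρ̄ g = d g`, `c` an involution with `d c = -1`, `2 ≠ 0`.
Then there are `ρ : G → GL₂(A)` LIFTING `ρ̄` (exactly), `L ≤ V` faithful and `Ψ : L² ≃ V` intertwining `ρ` and `r`.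
-/

set_option autoImplicit false

namespace Fermat.Agent.S43.GMAL

open Matrix Matrix.Module

theorem exists_diag {k : Type*} [Field k] (h2 : (2 : k) ≠ 0) (M : Matrix (Fin 2) (Fin 2) k)
    (hM : M * M = 1) (hdet : M.det = -1) :
    ∃ P : Matrix (Fin 2) (Fin 2) k, P.det ≠ 0 ∧ P * M = !![1, 0; 0, -1] * P := by
  obtain ⟨m, n, o, m', rfl⟩ : ∃ m n o m' : k, M = !![m, n; o, m'] :=
    ⟨M 0 0, M 0 1, M 1 0, M 1 1, Matrix.eta_fin_two M⟩
  rw [Matrix.det_fin_two_of] at hdet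
  have e00 := congrFun (congrFun hM 0) 0
  have e01 := congrFun (congrFun hM 0) 1
  have e10 := congrFun (congrFun hM 1) 0
  have e11 := congrFun (congrFun hM 1) 1
  simp [Matrix.mul_apply, Fin.sum_univ_two] at e00 e01 e10 e11
  have hs : (m + m') * (m + m') = 0 := by linear_combination e00 + e11 + 2 * hdet
  have hm' : m' = -m := by
    have := mul_self_eq_zero.1 hs
    linear_combination this
  subst hm'
  by_cases ho : o = 0
  · by_cases hn : n = 0
    · subst ho hn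
      have hm : (m - 1) * (m + 1) = 0 := by linear_combination e00
      rcases mul_eq_zero.1 hm with h | h
      · have : m = 1 := by linear_combination h
        subst this
        exact ⟨1, by simp, by simp⟩
      · have : m = -1 := by linear_combination h
        subst this
        refine ⟨!![0, 1; 1, 0], by simp [Matrix.det_fin_two_of], ?_⟩
        ext i j
        fin_cases i <;> fin_cases j <;> simp [Matrix.mul_apply, Fin.sum_univ_two]
    · refine ⟨!![1 + m, n; m - 1, n], ?_, ?_⟩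
      · rw [Matrix.det_fin_two_of]
        have : (1 + m) * n - n * (m - 1) = 2 * n := by ring
        rw [this]
        exact mul_ne_zero h2 hn
      · ext i j
        fin_cases i <;> fin_cases j <;> simp [Matrix.mul_apply, Fin.sum_univ_two]
        · linear_combination e00
        · ring
        · linear_combination e00
        · ring
  · refine ⟨!![o, 1 - m; o, -1 - m], ?_, ?_⟩
    · rw [Matrix.det_fin_two_of]
      have : o * (-1 - m) - (1 - m) * o = -(2 * o) := by ring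
      rw [this]
      exact neg_ne_zero.2 (mul_ne_zero h2 ho)
    · ext i j
      fin_cases i <;> fin_cases j <;> simp [Matrix.mul_apply, Fin.sum_univ_two]
      · ring
      · linear_combination e00
      · ring
      · linear_combination e00

/-- the action of an invertible matrix on `L²` as a linear equivalence. -/
def actEquiv {A L : Type*} [CommRing A] [AddCommGroup L] [Module A L] (Q : GL (Fin 2) A) :
    (Fin 2 → L) ≃ₗ[A] (Fin 2 → L) where
  toFun v := Q.1 • v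
  invFun v := (Q⁻¹ : GL (Fin 2) A).1 • v
  map_add' v v' := smul_add _ _ _
  map_smul' a v := by
    ext i
    simp [Fin.sum_univ_two, smul_comm a]
  left_inv v := by
    show (Q⁻¹ : GL (Fin 2) A).1 • Q.1 • v = v
    rw [← mul_smul, ← Units.val_mul, inv_mul_cancel, Units.val_one, one_smul]
  right_inv v := by
    show Q.1 • (Q⁻¹ : GL (Fin 2) A).1 • v = v
    rw [← mul_smul, ← Units.val_mul, mul_inv_cancel, Units.val_one, one_smul]

theorem actEquiv_apply {A L : Type*} [CommRing A] [AddCommGroup L] [Module A L] (Q : GL (Fin 2) A)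
    (v : Fin 2 → L) : actEquiv Q v = Q.1 • v := rfl

section Main

variable {k A V G : Type*} [Field k] [CommRing A] [Algebra k A] [AddCommGroup V] [Module A V]
  [Group G]

/-- The diagonal case: `ρ̄ c = diag(1,-1)`; output up to the conjugation by `diag(λ, 1)`. -/
theorem gma_diag (hf : ∀ a : A, (∀ v : V, a • v = 0) → a = 0)
    (π : A →ₐ[k] k) (hloc : ∀ a : A, π a ≠ 0 → IsUnit a) (h2 : (2 : k) ≠ 0)
    (r : G →* Module.End A V) (t : G → A) (d : G →* kˣ)
    (hCH : ∀ g, r g + algebraMap k A (d g) • r g⁻¹ = t g • (1 : Module.End A V))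
    (X : G →* Matrix (Fin 2) (Fin 2) k) (htr : ∀ g, π (t g) = (X g).trace)
    (c : G) (hc : c * c = 1) (hdc : d c = -1) (hXc : X c = !![1, 0; 0, -1])
    (g1 g2 : G) (hg1 : X g1 0 1 ≠ 0) (hg2 : X g2 1 0 ≠ 0) :
    ∃ (ρ : G →* Matrix (Fin 2) (Fin 2) A) (L : Submodule A V) (Ψ : (Fin 2 → L) ≃ₗ[A] V),
      (∀ g, (ρ g).map π * !![X g2 1 0, 0; 0, 1] = !![X g2 1 0, 0; 0, 1] * X g) ∧
      (∀ g, (ρ g).trace = t g) ∧ (∀ g, (ρ g).det = algebraMap k A (d g)) ∧
      (∀ g v, r g (Ψ v) = Ψ (ρ g • v)) ∧ (∀ a : A, (∀ x : L, a • x = 0) → a = 0) := by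
  classical
  let D0 : Core A V G :=
    { r := r, t := t, d := (algebraMap k A : k →* A).comp ((Units.coeHom k).comp d)
      hCH := hCH, c := c, hc := hc
      hdc := by simp [hdc]
      h := algebraMap k A 2⁻¹
      hh := by
        rw [← map_ofNat (algebraMap k A) 2, ← map_mul, mul_inv_cancel₀ h2, map_one]
      g1 := g1, g2 := g2, μ1 := 0, μ2 := 0 }
  have hXmul : ∀ g g' i j, X (g * g') i j = X g i 0 * X g' 0 j + X g i 1 * X g' 1 j := by
    intro g g' i j
    rw [map_mul, Matrix.mul_apply, Fin.sum_univ_two]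
  have hπh : π (algebraMap k A 2⁻¹) = 2⁻¹ := by simp
  have hπtc : ∀ g, π (t (c * g)) = X g 0 0 - X g 1 1 := by
    intro g
    rw [htr, Matrix.trace_fin_two, hXmul, hXmul, hXc]
    simp
    ring
  have hπa : ∀ g, π (D0.a g) = X g 0 0 := by
    intro g
    show π (algebraMap k A 2⁻¹ * (t g + t (c * g))) = _
    rw [map_mul, map_add, hπh, hπtc, htr, Matrix.trace_fin_two]
    field_simp
    ring
  have hπδ : ∀ g, π (D0.δ g) = X g 1 1 := by
    intro g
    show π (algebraMap k A 2⁻¹ * (t g - t (c * g))) = _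
    rw [map_mul, map_sub, hπh, hπtc, htr, Matrix.trace_fin_two]
    field_simp
    ring
  have hπB : ∀ g g', π (D0.a (g * g') - D0.a g * D0.a g') = X g 0 1 * X g' 1 0 := by
    intro g g'
    rw [map_sub, map_mul, hπa, hπa, hπa, hXmul]
    ring
  have hπB' : ∀ g g', π (D0.δ (g * g') - D0.δ g * D0.δ g') = X g 1 0 * X g' 0 1 := by
    intro g g'
    rw [map_sub, map_mul, hπδ, hπδ, hπδ, hXmul]
    ring
  obtain ⟨u1, hu1⟩ := hloc (D0.a (g1 * g2) - D0.a g1 * D0.a g2) (by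
    rw [hπB]; exact mul_ne_zero hg1 hg2)
  obtain ⟨u2, hu2⟩ := hloc (D0.δ (g2 * g1) - D0.δ g2 * D0.δ g1) (by
    rw [hπB']; exact mul_ne_zero hg2 hg1)
  let D : Core A V G := { D0 with μ1 := (u1⁻¹ : Aˣ), μ2 := (u2⁻¹ : Aˣ) }
  have hU : D.Units :=
    ⟨by
      show ((u1⁻¹ : Aˣ) : A) * (D0.a (g1 * g2) - D0.a g1 * D0.a g2) = 1
      rw [← hu1, Units.inv_mul],
     by
      show ((u2⁻¹ : Aˣ) : A) * (D0.δ (g2 * g1) - D0.δ g2 * D0.δ g1) = 1
      rw [← hu2, Units.inv_mul]⟩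
  have hπμ2 : π ((u2⁻¹ : Aˣ) : A) * (X g2 1 0 * X g1 0 1) = 1 := by
    rw [← hπB', ← map_mul, ← hu2, Units.inv_mul, map_one]
  refine ⟨Core.ρM hU hf, D.L, Core.Ψ hU, ?_, fun g => Core.trace_M g, fun g => Core.det_M hU hf g,
    fun g v => Core.equivariant hU g v, Core.L_faithful hU hf⟩
  intro g
  have hM : (Core.ρM hU hf g) = !![D0.a g, D0.a (g * g2) - D0.a g * D0.a g2;
     ((u2⁻¹ : Aˣ) : A) * (D0.a (g1 * g) - D0.a g1 * D0.a g), D0.δ g] := rfl
  rw [hM]
  ext i j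
  fin_cases i <;> fin_cases j <;>
    simp only [Matrix.mul_apply, Fin.sum_univ_two, Matrix.map_apply, Matrix.of_apply,
      Matrix.cons_val', Matrix.cons_val_zero, Matrix.cons_val_one, Matrix.cons_val_fin_one,
      Fin.zero_eta, Fin.mk_one, Fin.isValue, mul_zero, zero_mul, add_zero, zero_add, mul_one,
      one_mul, hπa, hπδ, hπB, map_mul]
  · ring
  · ring
  · linear_combination (X g 1 0) * hπμ2

/-- **GMA, consumer form.** -/
theorem gma_main (hf : ∀ a : A, (∀ v : V, a • v = 0) → a = 0)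
    (π : A →ₐ[k] k) (hloc : ∀ a : A, π a ≠ 0 → IsUnit a) (h2 : (2 : k) ≠ 0)
    (r : G →* Module.End A V) (t : G → A) (d : G →* kˣ)
    (hCH : ∀ g, r g + algebraMap k A (d g) • r g⁻¹ = t g • (1 : Module.End A V))
    (rb : G →* GL (Fin 2) k) (htr : ∀ g, π (t g) = (rb g).1.trace)
    (hdet : ∀ g, (rb g).1.det = d g)
    (c : G) (hc : c * c = 1) (hdc : d c = -1)
    (hirr : ∀ v : Fin 2 → k, v ≠ 0 → ∃ g, ∀ l : k, (rb g).1 *ᵥ v ≠ l • v) :
    ∃ (ρ : G →* GL (Fin 2) A) (L : Submodule A V) (Ψ : (Fin 2 → L) ≃ₗ[A] V),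
      (∀ g, (ρ g).1.map π = (rb g).1) ∧
      (∀ g, (ρ g).1.trace = t g) ∧ (∀ g, (ρ g).1.det = algebraMap k A (d g)) ∧
      (∀ g v, r g (Ψ v) = Ψ ((ρ g).1 • v)) ∧ (∀ a : A, (∀ x : L, a • x = 0) → a = 0) := by
  classical
  -- diagonalise `ρ̄ c`
  obtain ⟨P0, hP0, hPc⟩ := exists_diag h2 (rb c).1
    (by rw [← Units.val_mul, ← map_mul, hc, map_one, Units.val_one])
    (by rw [hdet, hdc]; simp)
  let P : GL (Fin 2) k := Matrix.GeneralLinearGroup.mkOfDetNeZero P0 hP0
  have hP : P.1 = P0 := rfl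
  let X : G →* Matrix (Fin 2) (Fin 2) k :=
    (Units.coeHom _).comp ((MulAut.conj P).toMonoidHom.comp rb)
  have hX : ∀ g, X g = P.1 * (rb g).1 * (P⁻¹ : GL (Fin 2) k).1 := fun g => rfl
  have hXP : ∀ g, X g * P.1 = P.1 * (rb g).1 := by
    intro g
    rw [hX, mul_assoc, Units.inv_mul, mul_one]
  have hXc : X c = !![1, 0; 0, -1] := by
    rw [hX, hP, hPc, mul_assoc, ← hP, Units.mul_inv, mul_one]
  have htrX : ∀ g, π (t g) = (X g).trace := by
    intro g
    rw [htr, hX, Matrix.trace_mul_comm, ← mul_assoc, Units.inv_mul, one_mul]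
  -- off-diagonal entries
  have hline : ∀ j : Fin 2, ∃ g, ∃ i, i ≠ j ∧ X g i j ≠ 0 := by
    intro j
    by_contra hcon
    push Not at hcon
    have hv : (P⁻¹ : GL (Fin 2) k).1 *ᵥ (Pi.single j 1) ≠ 0 := by
      intro h0
      have := congrArg (fun v => P.1 *ᵥ v) h0
      simp only [Matrix.mulVec_mulVec, Matrix.mulVec_zero] at this
      rw [Units.mul_inv, Matrix.one_mulVec] at this
      have h1 := congrFun this j
      simp at h1
    obtain ⟨g, hg⟩ := hirr _ hv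
    apply hg (X g j j)
    have h3 : (rb g).1 * (P⁻¹ : GL (Fin 2) k).1 = (P⁻¹ : GL (Fin 2) k).1 * X g := by
      rw [hX, ← mul_assoc, ← mul_assoc, Units.inv_mul, one_mul]
    rw [Matrix.mulVec_mulVec, h3, ← Matrix.mulVec_mulVec, ← Matrix.mulVec_smul]
    congr 1
    funext i
    rw [Matrix.mulVec_single_one]
    by_cases hij : i = j
    · subst hij; simp
    · simp [hcon g i hij, hij]
  obtain ⟨g2, i2, hi2, hg2⟩ := hline 0
  obtain ⟨g1, i1, hi1, hg1⟩ := hline 1
  have hi2' : i2 = 1 := by fin_cases i2 <;> simp_all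
  have hi1' : i1 = 0 := by fin_cases i1 <;> simp_all
  subst hi2' hi1'
  obtain ⟨ρ0, L, Ψ, h1, h3, h4, h5, h6⟩ :=
    gma_diag hf π hloc h2 r t d hCH X htrX c hc hdc hXc g1 g2 hg1 hg2
  let Dg : GL (Fin 2) k := Matrix.GeneralLinearGroup.mkOfDetNeZero !![X g2 1 0, 0; 0, 1]
    (by rw [Matrix.det_fin_two_of]; simpa using hg2)
  have hDg : Dg.1 = !![X g2 1 0, 0; 0, 1] := rfl
  let Q : GL (Fin 2) k := Dg * P
  let Q' : GL (Fin 2) A := Matrix.GeneralLinearGroup.map (algebraMap k A) Q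
  have hQ'π : Q'.1.map π = Q.1 := by
    ext i j
    simp [Q']
  have hmap : ∀ M : Matrix (Fin 2) (Fin 2) A, M.map π = π.mapMatrix M := fun _ => rfl
  have hQ'iπ : (Q'⁻¹ : GL (Fin 2) A).1.map π = (Q⁻¹ : GL (Fin 2) k).1 := by
    have e0 : (Q'⁻¹ : GL (Fin 2) A).1.map π * Q.1 = 1 := by
      rw [← hQ'π, hmap, hmap, ← map_mul, Units.inv_mul, map_one]
    calc (Q'⁻¹ : GL (Fin 2) A).1.map π
        = (Q'⁻¹ : GL (Fin 2) A).1.map π * (Q.1 * (Q⁻¹ : GL (Fin 2) k).1) := by
          rw [Units.mul_inv, mul_one]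
      _ = (Q⁻¹ : GL (Fin 2) k).1 := by rw [← mul_assoc, e0, one_mul]
  let ρ : G →* GL (Fin 2) A := (MulAut.conj Q'⁻¹).toMonoidHom.comp ρ0.toHomUnits
  have hρ : ∀ g, (ρ g).1 = (Q'⁻¹ : GL (Fin 2) A).1 * ρ0 g * Q'.1 := by
    intro g
    show ((Q'⁻¹ : GL (Fin 2) A) * ρ0.toHomUnits g * (Q'⁻¹)⁻¹).1 = _
    rw [inv_inv]
    rfl
  refine ⟨ρ, L, (actEquiv Q').trans Ψ, ?_, ?_, ?_, ?_, h6⟩
  · intro g
    rw [hρ, hmap, map_mul, map_mul, ← hmap, ← hmap, ← hmap, hQ'π, hQ'iπ]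
    have e1 : (ρ0 g).map π * Q.1 = Q.1 * (rb g).1 := by
      show (ρ0 g).map π * (Dg.1 * P.1) = (Dg.1 * P.1) * (rb g).1
      rw [← mul_assoc, hDg, h1, mul_assoc, hXP, mul_assoc]
    rw [mul_assoc, e1, ← mul_assoc, Units.inv_mul, one_mul]
  · intro g
    rw [hρ, Matrix.trace_mul_comm, ← mul_assoc, Units.mul_inv, one_mul, h3]
  · intro g
    rw [hρ, Matrix.det_mul, Matrix.det_mul, mul_right_comm, ← Matrix.det_mul, Units.inv_mul,
      Matrix.det_one, one_mul, h4]
  · intro g v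
    rw [LinearEquiv.trans_apply, LinearEquiv.trans_apply, actEquiv_apply, actEquiv_apply, h5, hρ,
      ← mul_smul, ← mul_smul, ← mul_assoc, ← mul_assoc, Units.mul_inv, one_mul]

end Main

end Fermat.Agent.S43.GMAL
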